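import Mathlib
import Fermat.Prelude.Def_FLTPrelim_FreyPackage
import Fermat.Prelude.Def_FLTPrelim_GaloisRep
import Fermat.Agent.S13.H31.Saw2
import Fermat.Agent.S05.H31.Node
import Fermat.Agent.S05.H60.M3
import Fermat.Agent.S05.H63.Reduction
import Fermat.Agent.S05.Frey

/-!
# S13, package C3-(IV): the Frey curve has no Galois-fixed point of order `p`

`frey_no_fixed_torsion_point` : there is no nonzero `R ∈ E(ℚ̄)[p]` fixed by `Gal(ℚ̄/ℚ)`.

Such a point would be a rational point `R₀ ∈ E(ℚ)` of order `p`.  We work `2`-adically over `ℚ`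
(valuation subring `A2`, value group `ℤ`, residue field `𝔽₂`); the Frey curve is in the
multiplicative normal form `a₃ = a₆ = 0`, `a₄ ∈ 𝔪`, `b₂` a unit.

* `R₀ ∉ E₀`: the sawtooth lemma (`Saw2`, no hypothesis on `v 2`) gives a multiple `k • R₀` with
  `p · ord₂ x(k • R₀) = 2 · ord₂ a₄ = 2 (p · ord₂ (ab) - 4)`, so `p ∣ 8`.
* `R₀ ∈ E₀`: the points `R₀, 2R₀, 3R₀` are integral with unit `x`-coordinate, hence all reduce to
  points with `x̄ = 1` over `𝔽₂`; two of them have the same reduction, which is nonsingular, so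
  their difference (`R₀` or `2R₀`) lies in the kernel of reduction, contradicting torsion
  integrality.
-/

set_option autoImplicit false

open WeierstrassCurve WeierstrassCurve.Affine WeierstrassCurve.Affine.Point

namespace Fermat.Agent.S13.H31

open Fermat.Agent.S05

/-- `ℚ̄`. -/
local notation "Qb" => AlgebraicClosure ℚ

/-! ### The `2`-adic valuation subring of `ℚ` -/

/-- The `2`-adic valuation subring of `ℚ`. -/
noncomputable def A2 : ValuationSubring ℚ := (Rat.padicValuation 2).valuationSubring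

lemma A2_equiv : (Rat.padicValuation 2).IsEquiv A2.valuation :=
  Valuation.isEquiv_valuation_valuationSubring _

lemma A2_val_lt_one_iff (x : ℚ) : A2.valuation x < 1 ↔ Rat.padicValuation 2 x < 1 :=
  (A2_equiv.lt_one_iff_lt_one).symm

lemma A2_val_eq_iff (x y : ℚ) : A2.valuation x = A2.valuation y ↔
    Rat.padicValuation 2 x = Rat.padicValuation 2 y :=
  (A2_equiv.eq_iff).symm

lemma intCast_mem_nonunits_iff (n : ℤ) : (n : ℚ) ∈ A2.nonunits ↔ (2 : ℤ) ∣ n := by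
  rw [A2.mem_nonunits_iff, A2_val_lt_one_iff, Rat.padicValuation_cast,
    Int.padicValuation_lt_one_iff]
  rfl

lemma padicValRat_eq_of_val_eq {u w : ℚ} (hu : u ≠ 0) (hw : w ≠ 0)
    (h : A2.valuation u = A2.valuation w) : padicValRat 2 u = padicValRat 2 w := by
  have h' := (A2_val_eq_iff u w).mp h
  simp only [Rat.padicValuation, Valuation.coe_mk, MonoidWithZeroHom.coe_mk, ZeroHom.coe_mk,
    hu, hw, if_false] at h'
  have := WithZero.exp_injective h'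
  linarith

/-- The residue field of `A2` is `𝔽₂`. -/
lemma mem_nonunits_or_sub_one {x : ℚ} (hx : x ∈ A2) :
    x ∈ A2.nonunits ∨ x - 1 ∈ A2.nonunits := by
  have hd : ¬ 2 ∣ x.den := by
    have := (Valuation.mem_valuationSubring_iff _ x).mp hx
    exact Rat.padicValuation_le_one_iff.mp this
  have hd' : ((x.den : ℤ) : ℚ) ∉ A2.nonunits := by
    rw [intCast_mem_nonunits_iff]
    exact_mod_cast hd
  have hdinv : ((x.den : ℤ) : ℚ)⁻¹ ∈ A2 := H31.inv_mem_of_not_nu A2 hd'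
  have hden0 : ((x.den : ℤ) : ℚ) ≠ 0 := by exact_mod_cast x.den_ne_zero
  have hx' : x = (x.num : ℚ) * ((x.den : ℤ) : ℚ)⁻¹ := by
    rw [← div_eq_mul_inv]; exact_mod_cast (Rat.num_div_den x).symm
  by_cases hn : (2 : ℤ) ∣ x.num
  · left
    rw [hx']
    exact H31.nu_mul_right A2 ((intCast_mem_nonunits_iff _).mpr hn) hdinv
  · right
    have h2 : (2 : ℤ) ∣ x.num - x.den := by
      have h1 : x.num % 2 = 1 := by omega
      have h3 : (x.den : ℤ) % 2 = 1 := by omega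
      omega
    have e : x - 1 = ((x.num - x.den : ℤ) : ℚ) * ((x.den : ℤ) : ℚ)⁻¹ := by
      conv_lhs => rw [hx']
      push_cast
      field_simp
    rw [e]
    exact H31.nu_mul_right A2 ((intCast_mem_nonunits_iff _).mpr h2) hdinv

/-- Two elements of `A2` in the same residue class differ by a nonunit. -/
lemma sub_mem_nonunits_of_iff {y y' : ℚ} (hy : y ∈ A2) (hy' : y' ∈ A2)
    (h : y ∈ A2.nonunits ↔ y' ∈ A2.nonunits) : y' - y ∈ A2.nonunits := by
  by_cases hm : y ∈ A2.nonunits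
  · exact H31.nu_sub A2 (h.mp hm) hm
  · have h1 : y - 1 ∈ A2.nonunits := (mem_nonunits_or_sub_one hy).resolve_left hm
    have h2 : y' - 1 ∈ A2.nonunits :=
      (mem_nonunits_or_sub_one hy').resolve_left (fun h' => hm (h.mpr h'))
    have e : y' - y = (y' - 1) - (y - 1) := by ring
    rw [e]
    exact H31.nu_sub A2 h2 h1

/-! ### The `y`-coordinate -/

/-- The `y`-coordinate of an affine point, with junk value `0` at the point at infinity. -/
def yOf {W : Affine ℚ} : W.Point → ℚ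
  | .zero => 0
  | .some _ y _ => y

/-! ### Two points of `E₀` with the same reduction at `2` -/

section Local

variable {W : Affine ℚ}

/-- Two integral points with unit `x`-coordinates and `y`-coordinates in the same residue class
have the same (nonsingular) reduction modulo `2`; hence their difference lies in the kernel of
reduction. -/
lemma sub_eq_zero_or_not_mem (h₃ : W.a₃ = 0) (h₆ : W.a₆ = 0) (ha₁ : W.a₁ ∈ A2)
    (ha₁u : W.a₁ ∉ A2.nonunits) (ha₂ : W.a₂ ∈ A2) (ha₄ : W.a₄ ∈ A2)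
    {Q Q' : W.Point} (hQ : Q ≠ 0) (hQ' : Q' ≠ 0)
    (hx : xOf Q ∈ A2) (hxu : xOf Q ∉ A2.nonunits)
    (hx' : xOf Q' ∈ A2) (hxu' : xOf Q' ∉ A2.nonunits)
    (hy : yOf Q ∈ A2.nonunits ↔ yOf Q' ∈ A2.nonunits) :
    Q' - Q = 0 ∨ xOf (Q' - Q) ∉ A2 := by
  rcases Q with _ | ⟨x, y, h⟩
  · exact absurd rfl hQ
  rcases Q' with _ | ⟨x', y', h'⟩
  · exact absurd rfl hQ'
  simp only [xOf_some] at hx hxu hx' hxu'
  change y ∈ A2.nonunits ↔ y' ∈ A2.nonunits at hy
  have ha₃ : W.a₃ ∈ A2 := h₃ ▸ A2.zero_mem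
  have ha₆ : W.a₆ ∈ A2 := h₆ ▸ A2.zero_mem
  have hyA : y ∈ A2 := H31.y_mem_of_equation ha₁ ha₂ ha₃ ha₄ ha₆ h.1 hx
  have hyA' : y' ∈ A2 := H31.y_mem_of_equation ha₁ ha₂ ha₃ ha₄ ha₆ h'.1 hx'
  have hxx : x' - x ∈ A2.nonunits := by
    have h1 : x - 1 ∈ A2.nonunits := (mem_nonunits_or_sub_one hx).resolve_left hxu
    have h2 : x' - 1 ∈ A2.nonunits := (mem_nonunits_or_sub_one hx').resolve_left hxu'
    have e : x' - x = (x' - 1) - (x - 1) := by ring
    rw [e]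
    exact H31.nu_sub A2 h2 h1
  have hyy : y' - y ∈ A2.nonunits := sub_mem_nonunits_of_iff hyA hyA' hy
  have two_nu : (2 : ℚ) ∈ A2.nonunits := by
    have := (intCast_mem_nonunits_iff 2).mpr dvd_rfl
    simpa using this
  have hns : W.a₁ * y - (3 * x ^ 2 + 2 * W.a₂ * x + W.a₄) ∉ A2.nonunits ∨
      2 * y + W.a₁ * x + W.a₃ ∉ A2.nonunits := by
    right
    intro hcon
    have h1 : A2.valuation W.a₁ = 1 := (H31.val_one_iff A2).mpr ⟨ha₁, ha₁u⟩
    have h2 : A2.valuation x = 1 := (H31.val_one_iff A2).mpr ⟨hx, hxu⟩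
    have h3 : W.a₁ * x ∈ A2.nonunits := by
      have e : W.a₁ * x = (2 * y + W.a₁ * x + W.a₃) - 2 * y := by rw [h₃]; ring
      rw [e]
      exact H31.nu_sub A2 hcon (H31.nu_mul_right A2 two_nu hyA)
    rw [H31.nu_iff, map_mul, h1, h2, one_mul] at h3
    exact lt_irrefl _ h3
  rcases H63.some_sub_some_eq_zero_or_X_not_mem A2 W ha₁ ha₂ ha₃ ha₄ h h' hx hyA hxx hyy hns
    with h0 | ⟨x'', y'', h'', heq, hx''⟩
  · exact Or.inl h0
  · right
    rw [heq]
    exact hx''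

/-- **No rational point of order `p` in the multiplicative normal form at `2`.** -/
theorem no_torsion_of_normal_form_two (h₃ : W.a₃ = 0) (h₆ : W.a₆ = 0) (ha₁ : W.a₁ ∈ A2)
    (ha₂ : W.a₂ ∈ A2) (ha₄ : W.a₄ ∈ A2.nonunits) (ha₄0 : W.a₄ ≠ 0)
    (hb₂ : A2.valuation W.b₂ = 1) {p : ℕ} (hp : p.Prime) (hp5 : 5 ≤ p)
    (hord : ¬ (p : ℤ) ∣ 2 * padicValRat 2 W.a₄) {R : W.Point} (hR : R ≠ 0)
    (hpR : p • R = 0) : False := by
  have two_nu : (2 : ℚ) ∈ A2.nonunits := by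
    have := (intCast_mem_nonunits_iff 2).mpr dvd_rfl
    simpa using this
  have ha₄A : W.a₄ ∈ A2 := H31.mem_of_nu A2 ha₄
  have hb₂A : W.b₂ ∈ A2 := ((H31.val_one_iff A2).mp hb₂).1
  by_cases hE : H31.InE0 A2 R
  · -- `R ∈ E₀`
    have ha₁u : W.a₁ ∉ A2.nonunits := by
      intro hcon
      have e : W.b₂ = W.a₁ * W.a₁ + 2 * (2 * W.a₂) := by simp only [b₂]; ring
      have hnu : W.b₂ ∈ A2.nonunits := by
        rw [e]
        exact H31.nu_add A2 (H31.nu_mul_right A2 hcon ha₁)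
          (H31.nu_mul_right A2 two_nu (A2.mul_mem _ _ (H31.two_mem A2) ha₂))
      exact ((H31.val_one_iff A2).mp hb₂).2 hnu
    have hpA : A2.valuation (p : ℚ) = 1 := by
      rw [H31.val_one_iff]
      refine ⟨H31.natCast_mem A2 p, ?_⟩
      have h2p : ¬ (2 : ℤ) ∣ (p : ℤ) := by
        intro hdvd
        have h2 : 2 ∣ p := by exact_mod_cast hdvd
        have := (Nat.prime_dvd_prime_iff_eq Nat.prime_two hp).mp h2
        omega
      intro hcon
      exact h2p ((intCast_mem_nonunits_iff (p : ℤ)).mp (by exact_mod_cast hcon))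
    have hp2 : p ≠ 2 := by omega
    have : Fact p.Prime := ⟨hp⟩
    have hord' : addOrderOf R = p := addOrderOf_eq_prime hpR hR
    -- facts about the multiples `k • R`, `k = 1, 2, 3`
    have key : ∀ k : ℕ, 0 < k → k < 5 →
        k • R ≠ 0 ∧ xOf (k • R) ∈ A2 ∧ xOf (k • R) ∉ A2.nonunits := by
      intro k hk0 hk5
      have hne : k • R ≠ 0 := by
        intro h0
        have hdvd : addOrderOf R ∣ k := addOrderOf_dvd_of_nsmul_eq_zero h0
        rw [hord'] at hdvd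
        have := Nat.le_of_dvd hk0 hdvd
        omega
      have hpk : p • (k • R) = 0 := by rw [smul_comm, hpR]; exact nsmul_zero k
      refine ⟨hne, ?_, ?_⟩
      · exact H60.torsion_integral' A2 ha₁ ha₂ (h₃ ▸ A2.zero_mem) ha₄A (h₆ ▸ A2.zero_mem) hp hp2
          hpA hne hpk
      · exact (H31.InE0.nsmul h₃ h₆ ha₄ hb₂A hE k).resolve_left hne
    obtain ⟨h1ne, h1x, h1u⟩ := key 1 (by norm_num) (by norm_num)
    obtain ⟨h2ne, h2x, h2u⟩ := key 2 (by norm_num) (by norm_num)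
    obtain ⟨h3ne, h3x, h3u⟩ := key 3 (by norm_num) (by norm_num)
    have e21 : 2 • R - 1 • R = 1 • R := by abel
    have e31 : 3 • R - 1 • R = 2 • R := by abel
    have e32 : 3 • R - 2 • R = 1 • R := by abel
    have fin : ∀ {Q Q' D : W.Point}, Q' - Q = D → D ≠ 0 → xOf D ∈ A2 →
        (Q' - Q = 0 ∨ xOf (Q' - Q) ∉ A2) → False := by
      intro Q Q' D hD hD0 hDx hor
      rw [hD] at hor
      rcases hor with h | h
      · exact hD0 h
      · exact h hDx
    by_cases c12 : (yOf (1 • R) ∈ A2.nonunits ↔ yOf (2 • R) ∈ A2.nonunits)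
    · exact fin e21 h1ne h1x
        (sub_eq_zero_or_not_mem h₃ h₆ ha₁ ha₁u ha₂ ha₄A h1ne h2ne h1x h1u h2x h2u c12)
    by_cases c13 : (yOf (1 • R) ∈ A2.nonunits ↔ yOf (3 • R) ∈ A2.nonunits)
    · exact fin e31 h2ne h2x
        (sub_eq_zero_or_not_mem h₃ h₆ ha₁ ha₁u ha₂ ha₄A h1ne h3ne h1x h1u h3x h3u c13)
    have c23 : (yOf (2 • R) ∈ A2.nonunits ↔ yOf (3 • R) ∈ A2.nonunits) := by tauto
    exact fin e32 h1ne h1x
      (sub_eq_zero_or_not_mem h₃ h₆ ha₁ ha₁u ha₂ ha₄A h2ne h3ne h2x h2u h3x h3u c23)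
  · -- `R ∉ E₀`: sawtooth
    have hm : ∀ k : ℕ, ¬ p ∣ k → A2.valuation (xOf (k • R)) < 1 := by
      intro k hk
      have hnot := H31.not_inE0_nsmul h₃ h₆ ha₄ hb₂A hp hpR hE hk
      by_contra hlt
      exact hnot (Or.inr fun hnu => hlt ((H31.nu_iff A2).mp hnu))
    obtain ⟨k, -, hkv⟩ := exists_multiple_val' A2 h₃ h₆ hb₂ ((H31.nu_iff A2).mp ha₄) ha₄0 hp hp5
      hR hpR hm
    have hv4 : A2.valuation W.a₄ ≠ 0 := (A2.valuation.ne_zero_iff).mpr ha₄0
    have hξ0 : xOf (k • R) ≠ 0 := by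
      intro h0
      rw [h0, _root_.map_zero, zero_pow hp.ne_zero] at hkv
      exact pow_ne_zero 2 hv4 hkv.symm
    have hval := padicValRat_eq_of_val_eq (pow_ne_zero p hξ0) (pow_ne_zero 2 ha₄0)
      (by rw [map_pow, map_pow]; exact hkv)
    rw [padicValRat.pow, padicValRat.pow] at hval
    exact hord ⟨padicValRat 2 (xOf (k • R)), by push_cast at hval; linarith⟩

end Local

/-! ### The Frey curve at `2` -/

section FreyTwo

variable (P : FreyPackage)

lemma two_dvd_b : (2 : ℤ) ∣ P.b := (ZMod.intCast_zmod_eq_zero_iff_dvd P.b 2).1 P.hb2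

lemma not_two_dvd_a : ¬ (2 : ℤ) ∣ P.a := by
  rintro ⟨k, hk⟩
  have h := P.ha4
  rw [hk] at h
  push_cast at h
  revert h
  generalize (k : ZMod 4) = t
  revert t
  decide

lemma four_dvd_a_pow_add_one : (4 : ℤ) ∣ P.a ^ P.p + 1 := by
  refine (ZMod.intCast_zmod_eq_zero_iff_dvd _ 4).1 ?_
  push_cast
  rw [P.ha4]
  obtain ⟨k, hk⟩ := P.hp_odd
  rw [hk, pow_succ, pow_mul]
  have h9 : (3 : ZMod 4) ^ 2 = 1 := by decide
  rw [h9, one_pow]
  decide

lemma thirtytwo_dvd_b_pow : (32 : ℤ) ∣ P.b ^ P.p := by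
  obtain ⟨k, hk⟩ := two_dvd_b P
  rw [hk, mul_pow]
  have h5 : (32 : ℤ) ∣ 2 ^ P.p := by
    have : (2 : ℤ) ^ 5 ∣ 2 ^ P.p := pow_dvd_pow 2 P.hp5
    simpa using this
  exact Dvd.dvd.mul_right h5 _

lemma not_two_dvd_a_pow : ¬ (2 : ℤ) ∣ P.a ^ P.p := fun h =>
  not_two_dvd_a P (Int.prime_two.dvd_of_dvd_pow h)

/-- **The Frey curve has no rational point of order `p`.** -/
theorem frey_no_rational_torsion_point (R : (P.freyCurve⁄ℚ).Point) (hR : R ≠ 0)
    (hpR : P.p • R = 0) : False := by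
  obtain ⟨n, hn⟩ := thirtytwo_dvd_b_pow P
  obtain ⟨m, hm⟩ := four_dvd_a_pow_add_one P
  have ha₂ : (P.freyCurve⁄ℚ).a₂ = ((8 * n - m : ℤ) : ℚ) := by
    have e : (P.freyCurve⁄ℚ).a₂ = ((P.b ^ P.p - 1 - P.a ^ P.p : ℤ) : ℚ) / 4 := frey_a₂ P
    have e2 : P.b ^ P.p - 1 - P.a ^ P.p = 4 * (8 * n - m) := by linarith
    rw [e, e2]
    push_cast
    ring
  have ha₄ : (P.freyCurve⁄ℚ).a₄ = ((2 * (-(P.a ^ P.p) * n) : ℤ) : ℚ) := by
    have e : (P.freyCurve⁄ℚ).a₄ = (-1 / 16 : ℚ) * ((P.a * P.b : ℤ) : ℚ) ^ P.p := frey_a₄ P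
    have e2 : ((P.b : ℚ)) ^ P.p = 32 * n := by exact_mod_cast hn
    rw [e]
    push_cast
    rw [mul_pow, e2]
    ring
  have ha₄' : (P.freyCurve⁄ℚ).a₄ = (-1 / 16 : ℚ) * ((P.a * P.b : ℤ) : ℚ) ^ P.p := frey_a₄ P
  have hb₂ : (P.freyCurve⁄ℚ).b₂ = ((P.b ^ P.p - P.a ^ P.p : ℤ) : ℚ) := frey_b₂ P
  have hab0 : ((P.a * P.b : ℤ) : ℚ) ≠ 0 := by
    exact_mod_cast mul_ne_zero P.ha0 P.hb0
  refine no_torsion_of_normal_form_two (W := P.freyCurve⁄ℚ) rfl rfl ?_ ?_ ?_ ?_ ?_ P.pp P.hp5 ?_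
    hR hpR
  · show (1 : ℚ) ∈ A2
    exact A2.one_mem
  · rw [ha₂]; exact intCast_mem A2 _
  · rw [ha₄, intCast_mem_nonunits_iff]; exact dvd_mul_right _ _
  · rw [ha₄']
    exact mul_ne_zero (by norm_num) (pow_ne_zero _ hab0)
  · rw [hb₂, H31.val_one_iff]
    refine ⟨intCast_mem A2 _, ?_⟩
    rw [intCast_mem_nonunits_iff]
    intro hdvd
    have h2b : (2 : ℤ) ∣ P.b ^ P.p := dvd_trans (by norm_num) (thirtytwo_dvd_b_pow P)
    exact not_two_dvd_a_pow P ((dvd_sub_right h2b).mp hdvd)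
  · rw [ha₄', padicValRat.mul (by norm_num) (pow_ne_zero _ hab0), padicValRat.pow]
    have h16 : padicValRat 2 (-1 / 16 : ℚ) = -4 := by
      have h : (-1 / 16 : ℚ) = -(((2 : ℕ) : ℚ) ^ 4)⁻¹ := by norm_num
      rw [h, padicValRat.neg, padicValRat.inv, padicValRat.pow, padicValRat.self (by norm_num)]
      norm_num
    rw [h16]
    intro hdvd
    have h8 : (P.p : ℤ) ∣ 8 := by
      have h1 : (P.p : ℤ) ∣ 2 * ((P.p : ℤ) * padicValRat 2 ((P.a * P.b : ℤ) : ℚ)) :=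
        Dvd.dvd.mul_left (dvd_mul_right _ _) _
      have h2 := dvd_sub h1 hdvd
      have e : 2 * ((P.p : ℤ) * padicValRat 2 ((P.a * P.b : ℤ) : ℚ)) -
          2 * (-4 + (P.p : ℤ) * padicValRat 2 ((P.a * P.b : ℤ) : ℚ)) = 8 := by ring
      rwa [e] at h2
    have h8' : P.p ∣ 8 := by exact_mod_cast h8
    have h2' : P.p ∣ 2 := P.pp.dvd_of_dvd_pow (show P.p ∣ 2 ^ 3 by simpa using h8')
    have := Nat.le_of_dvd (by norm_num) h2'
    have := P.hp5
    omega

end FreyTwo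

/-! ### Descent of Galois-fixed points to `ℚ` -/

/-- `AlgebraicClosure ℚ` is Galois over `ℚ` (for the default `ℚ`-algebra structure of a
characteristic zero field). -/
theorem isGalois_Qb : IsGalois ℚ Qb := by
  have h : (DivisionRing.toRatAlgebra : Algebra ℚ (AlgebraicClosure ℚ)) =
      AlgebraicClosure.instAlgebra ℚ := Subsingleton.elim _ _
  rw [h]
  exact @IsAlgClosure.isGalois ℚ (AlgebraicClosure ℚ) _ _ (AlgebraicClosure.instAlgebra ℚ)
    inferInstance _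

/-- A point of `E(ℚ̄)` fixed by `Gal(ℚ̄/ℚ)` comes from a rational point. -/
theorem exists_map_eq_of_fixed (W₀ : Affine ℚ) (R : (W₀⁄Qb).Point)
    (hfix : ∀ σ : Qb ≃ₐ[ℚ] Qb, σ • R = R) :
    ∃ R₀ : (W₀⁄ℚ).Point, Point.map (W' := W₀) (Algebra.ofId ℚ Qb) R₀ = R := by
  have := isGalois_Qb
  rcases R with _ | ⟨x, y, h⟩
  · exact ⟨0, rfl⟩
  have hx : ∀ σ : Qb ≃ₐ[ℚ] Qb, σ x = x := fun σ => by
    have h1 := hfix σ
    rw [algEquiv_smul_def, Point.map_some] at h1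
    exact (Point.some.inj h1).1
  have hy : ∀ σ : Qb ≃ₐ[ℚ] Qb, σ y = y := fun σ => by
    have h1 := hfix σ
    rw [algEquiv_smul_def, Point.map_some] at h1
    exact (Point.some.inj h1).2
  obtain ⟨x₀, rfl⟩ := (InfiniteGalois.mem_range_algebraMap_iff_fixed x).mpr hx
  obtain ⟨y₀, rfl⟩ := (InfiniteGalois.mem_range_algebraMap_iff_fixed y).mpr hy
  have h₀ : (W₀⁄ℚ).Nonsingular x₀ y₀ :=
    (W₀.baseChange_nonsingular (Algebra.ofId ℚ Qb).injective x₀ y₀).mp h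
  exact ⟨Point.some x₀ y₀ h₀, rfl⟩

/-- **(IV)**: the Frey curve has no nonzero point of order `p` fixed by `Gal(ℚ̄/ℚ)`. -/
theorem frey_no_fixed_torsion_point (P : FreyPackage) :
    ¬ ∃ R : (P.freyCurve⁄Qb).Point, R ≠ 0 ∧ P.p • R = 0 ∧ ∀ σ : Qb ≃ₐ[ℚ] Qb, σ • R = R := by
  rintro ⟨R, hR, hpR, hfix⟩
  obtain ⟨R₀, rfl⟩ := exists_map_eq_of_fixed P.freyCurve R hfix
  have hinj := Point.map_injective (W' := P.freyCurve) (Algebra.ofId ℚ Qb)
  refine frey_no_rational_torsion_point P R₀ ?_ ?_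
  · rintro rfl
    exact hR rfl
  · apply hinj
    rw [map_nsmul, hpR, _root_.map_zero]

end Fermat.Agent.S13.H31
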